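/-
S28, package M7 (scheme glue), helper87.

Main result: `Fermat.Agent.S28.H87.isIntegral_pullback_of_charts`.
If the base changes to `K` of the two affine charts of the Igusa scheme are domains and the
base change of the overlap chart is a nontrivial ring, then the fibre of the Igusa scheme
over `K` is an integral scheme.
-/
import Mathlib
import Fermat.Prelude.Def_ModularCurve_IgusaScheme

set_option autoImplicit false

open AlgebraicGeometry CategoryTheory CategoryTheory.Limits ModularCurve ModularCurve.IgusaScheme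

namespace Fermat.Agent.S28.H87

universe u

/-- A space covered by two irreducible open subsets with nonempty intersection is irreducible. -/
theorem irreducibleSpace_of_two_opens {X : Type*} [TopologicalSpace X] (U V : Set X)
    (hU : IsOpen U) (hV : IsOpen V) (hUi : IsIrreducible U) (hVi : IsIrreducible V)
    (hne : (U ∩ V).Nonempty) (hcov : ∀ x : X, x ∈ U ∨ x ∈ V) : IrreducibleSpace X := by
  -- every nonempty open set meets `U ∩ V`
  have key : ∀ W : Set X, IsOpen W → W.Nonempty → (W ∩ (U ∩ V)).Nonempty := by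
    intro W hW ⟨x, hx⟩
    rcases hcov x with hxU | hxV
    · have := hUi.2 W V hW hV ⟨x, hxU, hx⟩ (by simpa [Set.inter_comm] using hne)
      obtain ⟨y, hyU, hyW, hyV⟩ := this
      exact ⟨y, hyW, hyU, hyV⟩
    · have := hVi.2 W U hW hU ⟨x, hxV, hx⟩ (by simpa [Set.inter_comm] using hne)
      obtain ⟨y, hyV, hyW, hyU⟩ := this
      exact ⟨y, hyW, hyU, hyV⟩
  have hpre : IsPreirreducible (Set.univ : Set X) := by
    intro W₁ W₂ h₁ h₂ hn₁ hn₂
    rw [Set.univ_inter] at hn₁ hn₂ ⊢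
    obtain ⟨y₁, hy₁W, hy₁U, hy₁V⟩ := key W₁ h₁ hn₁
    obtain ⟨y₂, hy₂W, hy₂U, hy₂V⟩ := key W₂ h₂ hn₂
    obtain ⟨z, -, hz₁, hz₂⟩ := hUi.2 W₁ W₂ h₁ h₂ ⟨y₁, hy₁U, hy₁W⟩ ⟨y₂, hy₂U, hy₂W⟩
    exact ⟨z, hz₁, hz₂⟩
  obtain ⟨x, -⟩ := hne
  exact { toPreirreducibleSpace := ⟨hpre⟩, toNonempty := ⟨x⟩ }

/-- A scheme covered by two integral open subschemes with nonempty intersection is integral. -/
theorem isIntegral_of_two_charts {P A B : Scheme.{u}} (a : A ⟶ P) (b : B ⟶ P)
    [IsOpenImmersion a] [IsOpenImmersion b] [IsIntegral A] [IsIntegral B]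
    (hcov : ∀ x : P, x ∈ Set.range a ∨ x ∈ Set.range b)
    (hne : (Set.range a ∩ Set.range b).Nonempty) : IsIntegral P := by
  have : IsReduced P := by
    let 𝒰 : P.OpenCover := Scheme.Cover.mkOfCovers Bool (fun i => cond i A B)
      (fun i => match i with
        | true => a
        | false => b)
      (fun x => by
        rcases hcov x with ⟨y, hy⟩ | ⟨y, hy⟩
        · exact ⟨true, y, hy⟩
        · exact ⟨false, y, hy⟩)
      (fun i => by cases i <;> infer_instance)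
    have : ∀ i, IsReduced (𝒰.X i) := fun i => by
      cases i
      · exact (inferInstance : IsReduced B)
      · exact (inferInstance : IsReduced A)
    exact IsReduced.of_openCover P 𝒰
  have : IrreducibleSpace P :=
    irreducibleSpace_of_two_opens (Set.range a) (Set.range b)
      a.isOpenEmbedding.isOpen_range b.isOpenEmbedding.isOpen_range
      (by
        rw [← Set.image_univ]
        exact (IrreducibleSpace.isIrreducible_univ A).image _ a.continuous.continuousOn)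
      (by
        rw [← Set.image_univ]
        exact (IrreducibleSpace.isIrreducible_univ B).image _ b.continuous.continuousOn)
      hne hcov
  exact isIntegral_of_irreducibleSpace_of_isReduced P


theorem mem_range_pullback_snd_iff {X Y Z : Scheme.{u}} (f : X ⟶ Z) (g : Y ⟶ Z)
    [IsOpenImmersion f] (y : Y) :
    y ∈ Set.range (pullback.snd f g) ↔ g y ∈ Set.range f := by
  rw [IsOpenImmersion.range_pullbackSnd]
  rfl

section Igusa

/-- the base-change morphism `Spec K ⟶ Spec ℤ_(ℓ)` -/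
noncomputable abbrev gK (ℓ : ℕ) (K : Type) [Field K] [Algebra ↥(GaloisRep.ratLocalizedAt ℓ) K] :
    Spec (CommRingCat.of K) ⟶ Spec (CommRingCat.of ↥(GaloisRep.ratLocalizedAt ℓ)) :=
  Spec.map (CommRingCat.ofHom (algebraMap ↥(GaloisRep.ratLocalizedAt ℓ) K))

open TensorProduct in
/-- The base change of an affine chart `Spec B ⟶ Y` over `Spec ℤ_(ℓ)` is `Spec (B ⊗ K)`. -/
noncomputable def pullbackChartIso (ℓ : ℕ) (K : Type) [Field K]
    [Algebra ↥(GaloisRep.ratLocalizedAt ℓ) K]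
    (B : Type) [CommRing B] [Algebra ↥(GaloisRep.ratLocalizedAt ℓ) B]
    {Y : Scheme.{0}} (f : Spec (CommRingCat.of B) ⟶ Y)
    (h : Y ⟶ Spec (CommRingCat.of ↥(GaloisRep.ratLocalizedAt ℓ)))
    (hfh : f ≫ h = Spec.map (CommRingCat.ofHom (algebraMap ↥(GaloisRep.ratLocalizedAt ℓ) B))) :
    pullback f (pullback.fst h (gK ℓ K)) ≅
      Spec (CommRingCat.of (B ⊗[↥(GaloisRep.ratLocalizedAt ℓ)] K)) :=
  pullbackRightPullbackFstIso h (gK ℓ K) f ≪≫ pullback.congrHom hfh rfl ≪≫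
    pullbackSpecIso ↥(GaloisRep.ratLocalizedAt ℓ) B K

open TensorProduct in
theorem isIntegral_pullback_chart (ℓ : ℕ) (K : Type) [Field K]
    [Algebra ↥(GaloisRep.ratLocalizedAt ℓ) K]
    (B : Type) [CommRing B] [Algebra ↥(GaloisRep.ratLocalizedAt ℓ) B]
    [IsDomain (B ⊗[↥(GaloisRep.ratLocalizedAt ℓ)] K)]
    {Y : Scheme.{0}} (f : Spec (CommRingCat.of B) ⟶ Y)
    (h : Y ⟶ Spec (CommRingCat.of ↥(GaloisRep.ratLocalizedAt ℓ)))
    (hfh : f ≫ h = Spec.map (CommRingCat.ofHom (algebraMap ↥(GaloisRep.ratLocalizedAt ℓ) B))) :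
    IsIntegral (pullback f (pullback.fst h (gK ℓ K))) := by
  have hint : IsIntegral (Spec (CommRingCat.of (B ⊗[↥(GaloisRep.ratLocalizedAt ℓ)] K))) :=
    inferInstance
  have hne : Nonempty ↥(pullback f (pullback.fst h (gK ℓ K))) :=
    ⟨(pullbackChartIso ℓ K B f h hfh).inv (Classical.arbitrary _)⟩
  exact isIntegral_of_isOpenImmersion (pullbackChartIso ℓ K B f h hfh).hom

open TensorProduct in
theorem nonempty_pullback_chart (ℓ : ℕ) (K : Type) [Field K]
    [Algebra ↥(GaloisRep.ratLocalizedAt ℓ) K]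
    (B : Type) [CommRing B] [Algebra ↥(GaloisRep.ratLocalizedAt ℓ) B]
    [Nontrivial (B ⊗[↥(GaloisRep.ratLocalizedAt ℓ)] K)]
    {Y : Scheme.{0}} (f : Spec (CommRingCat.of B) ⟶ Y)
    (h : Y ⟶ Spec (CommRingCat.of ↥(GaloisRep.ratLocalizedAt ℓ)))
    (hfh : f ≫ h = Spec.map (CommRingCat.ofHom (algebraMap ↥(GaloisRep.ratLocalizedAt ℓ) B))) :
    Nonempty ↥(pullback f (pullback.fst h (gK ℓ K))) :=
  ⟨(pullbackChartIso ℓ K B f h hfh).inv (Classical.arbitrary _)⟩

theorem mid_toBase (N : ℕ) [NeZero N] (ℓ : ℕ) [Fact ℓ.Prime] :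
    (fFin N ℓ ≫ ιFin N ℓ) ≫ igusaTo N ℓ =
      Spec.map (CommRingCat.ofHom
        (algebraMap ↥(GaloisRep.ratLocalizedAt ℓ) (chartAlgMid N ℓ))) := by
  rw [Category.assoc, ιFin_igusaTo, ← Spec.map_comp, ← CommRingCat.ofHom_comp]
  congr 2

open TensorProduct in
/-- **Package M7 (scheme glue).** If the base changes of the two affine charts of the Igusa
scheme are domains and the base change of the overlap chart is nontrivial, then the fibre
`IgusaScheme ×_{ℤ_(ℓ)} Spec K` is an integral scheme. -/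
theorem isIntegral_pullback_of_charts (N : ℕ) [NeZero N] (ℓ : ℕ) [Fact ℓ.Prime]
    (K : Type) [Field K] [Algebra ↥(GaloisRep.ratLocalizedAt ℓ) K]
    (hFin : IsDomain (chartAlgFin N ℓ ⊗[↥(GaloisRep.ratLocalizedAt ℓ)] K))
    (hInf : IsDomain (chartAlgInf N ℓ ⊗[↥(GaloisRep.ratLocalizedAt ℓ)] K))
    (hMid : Nontrivial (chartAlgMid N ℓ ⊗[↥(GaloisRep.ratLocalizedAt ℓ)] K)) :
    IsIntegral ↑(pullback (igusaTo N ℓ)
      (Spec.map (CommRingCat.ofHom (algebraMap ↥(GaloisRep.ratLocalizedAt ℓ) K)))) := by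
  have hA : IsIntegral (pullback (ιFin N ℓ) (pullback.fst (igusaTo N ℓ) (gK ℓ K))) :=
    isIntegral_pullback_chart ℓ K (chartAlgFin N ℓ) (ιFin N ℓ) (igusaTo N ℓ) (ιFin_igusaTo N ℓ)
  have hB : IsIntegral (pullback (ιInf N ℓ) (pullback.fst (igusaTo N ℓ) (gK ℓ K))) :=
    isIntegral_pullback_chart ℓ K (chartAlgInf N ℓ) (ιInf N ℓ) (igusaTo N ℓ) (ιInf_igusaTo N ℓ)
  have hM : Nonempty ↥(pullback (fFin N ℓ ≫ ιFin N ℓ) (pullback.fst (igusaTo N ℓ) (gK ℓ K))) :=
    nonempty_pullback_chart ℓ K (chartAlgMid N ℓ) (fFin N ℓ ≫ ιFin N ℓ) (igusaTo N ℓ)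
      (mid_toBase N ℓ)
  refine isIntegral_of_two_charts
    (pullback.snd (ιFin N ℓ) (pullback.fst (igusaTo N ℓ) (gK ℓ K)))
    (pullback.snd (ιInf N ℓ) (pullback.fst (igusaTo N ℓ) (gK ℓ K))) ?_ ?_
  · intro x
    rw [mem_range_pullback_snd_iff, mem_range_pullback_snd_iff]
    exact mem_range_ιFin_or_mem_range_ιInf N ℓ _
  · obtain ⟨z⟩ := hM
    have hz : (ιFin N ℓ) ((fFin N ℓ) (pullback.fst (fFin N ℓ ≫ ιFin N ℓ)
        (pullback.fst (igusaTo N ℓ) (gK ℓ K)) z)) =
        (pullback.fst (igusaTo N ℓ) (gK ℓ K))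
          (pullback.snd (fFin N ℓ ≫ ιFin N ℓ) (pullback.fst (igusaTo N ℓ) (gK ℓ K)) z) := by
      have := congrArg (fun φ => φ z)
        (congrArg (fun φ : _ ⟶ ModularCurve.IgusaScheme N ℓ => (φ.base : _ → _))
          (pullback.condition (f := fFin N ℓ ≫ ιFin N ℓ)
            (g := pullback.fst (igusaTo N ℓ) (gK ℓ K))))
      simpa using this
    have hglue : ∀ w, (ιInf N ℓ) ((fInf N ℓ) w) = (ιFin N ℓ) ((fFin N ℓ) w) := by
      intro w
      have := congrArg (fun φ => φ w)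
        (congrArg (fun φ : _ ⟶ ModularCurve.IgusaScheme N ℓ => (φ.base : _ → _))
          (glue_condition N ℓ))
      simpa using this.symm
    refine ⟨pullback.snd (fFin N ℓ ≫ ιFin N ℓ) (pullback.fst (igusaTo N ℓ) (gK ℓ K)) z, ?_, ?_⟩
    · rw [mem_range_pullback_snd_iff]
      exact ⟨_, hz⟩
    · rw [mem_range_pullback_snd_iff]
      exact ⟨_, (hglue _).trans hz⟩

end Igusa

end Fermat.Agent.S28.H87
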