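/-
S28, packages M6 (independent backup) and M6 + M7 combined, helper87.

Main results:
* `Fermat.Agent.S28.H87.isDomain_tensor_of_qep_abstract`: abstract form (any `ℤ_(ℓ)`-algebra
  with an `ℓ`-integral expansion map satisfying the `q`-expansion principle).
* `Fermat.Agent.S28.H87.isDomain_tensor_chartAlg`, `nontrivial_tensor_chartAlg`: chart algebras.
* `Fermat.Agent.S28.H87.isIntegral_pullback_of_qep`: the conclusion of S28 from integrality of
  `q`-expansions and the `q`-expansion principle.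
-/
import Mathlib
import Fermat.Prelude.Def_ModularCurve_IgusaScheme
import Fermat.Prelude.Def_ModularCurve_LaurentCoeff
import Fermat.Agent.S28.H87.Glue

set_option autoImplicit false

open ModularCurve TensorProduct

namespace Fermat.Agent.S28.H87

section Residue

variable (ℓ : ℕ) [Fact ℓ.Prime]

/-- Every element of `ℤ_(ℓ)` has a residue in `ZMod ℓ`, compatible with any ring hom to a
field of characteristic `ℓ`; the residue vanishes only on multiples of `ℓ`. -/
theorem exists_residue (K : Type) [Field K] [CharP K ℓ]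
    (φ : ↥(GaloisRep.ratLocalizedAt ℓ) →+* K) (c : ↥(GaloisRep.ratLocalizedAt ℓ)) :
    ∃ z : ZMod ℓ, φ c = ZMod.castHom (dvd_refl ℓ) K z ∧
      (z = 0 → ∃ c' : ↥(GaloisRep.ratLocalizedAt ℓ),
        c = (ℓ : ↥(GaloisRep.ratLocalizedAt ℓ)) * c') := by
  have hℓ : ℓ.Prime := Fact.out
  obtain ⟨q, hq⟩ := c
  have hcop : q.den.Coprime ℓ := hq
  have hndvd : ¬ ℓ ∣ q.den := fun h => hℓ.one_lt.ne' (Nat.Coprime.eq_one_of_dvd hcop.symm h)
  have hdK : ((q.den : ℕ) : K) ≠ 0 := by
    rw [Ne, CharP.cast_eq_zero_iff K ℓ]; exact hndvd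
  have hdZ : ((q.den : ℕ) : ZMod ℓ) ≠ 0 := by
    rw [Ne, ZMod.natCast_eq_zero_iff]; exact hndvd
  have h1 : ((q.den : ℕ) : ↥(GaloisRep.ratLocalizedAt ℓ)) * ⟨q, hq⟩
      = ((q.num : ℤ) : ↥(GaloisRep.ratLocalizedAt ℓ)) := by
    apply Subtype.ext
    push_cast
    rw [mul_comm]
    exact Rat.mul_den_eq_num q
  have h2 : ((q.den : ℕ) : K) * φ ⟨q, hq⟩ = ((q.num : ℤ) : K) := by
    have := congrArg φ h1
    simpa using this
  refine ⟨(q.num : ZMod ℓ) / (q.den : ZMod ℓ), ?_, ?_⟩
  · rw [map_div₀, map_intCast, map_natCast, eq_div_iff hdK, mul_comm]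
    exact h2
  · intro hz
    rw [div_eq_zero_iff] at hz
    have hnum : ((q.num : ℤ) : ZMod ℓ) = 0 := hz.resolve_right hdZ
    rw [ZMod.intCast_zmod_eq_zero_iff_dvd] at hnum
    obtain ⟨m, hm⟩ := hnum
    have hmem : ((m : ℚ) / ((q.den : ℤ) : ℚ)) ∈ GaloisRep.ratLocalizedAt ℓ := by
      show ((m : ℚ) / ((q.den : ℤ) : ℚ)).den.Coprime ℓ
      have hdvd : (((m : ℚ) / ((q.den : ℤ) : ℚ)).den : ℤ) ∣ (q.den : ℤ) := by
        rw [← Rat.divInt_eq_div]; exact Rat.den_dvd m q.den
      exact Nat.Coprime.coprime_dvd_left (Int.natCast_dvd_natCast.mp hdvd) hcop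
    refine ⟨⟨_, hmem⟩, Subtype.ext ?_⟩
    push_cast
    have hq' : q = (q.num : ℚ) / (q.den : ℚ) := (Rat.num_div_den q).symm
    have hden : (q.den : ℚ) ≠ 0 := by exact_mod_cast q.den_nz
    conv_lhs => rw [hq', hm]
    push_cast
    field_simp

end Residue

section Abstract

variable (ℓ : ℕ) [Fact ℓ.Prime]

/-- Laurent series with `ℓ`-integral coefficients, inside Laurent series over `ℚ`. -/
noncomputable def incl : LaurentSeries ↥(GaloisRep.ratLocalizedAt ℓ) →+* LaurentSeries ℚ :=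
  coeffMap (GaloisRep.ratLocalizedAt ℓ).subtype

omit [Fact ℓ.Prime] in
theorem incl_coeff (x : LaurentSeries ↥(GaloisRep.ratLocalizedAt ℓ)) (k : ℤ) :
    (incl ℓ x).coeff k = ((x.coeff k : ↥(GaloisRep.ratLocalizedAt ℓ)) : ℚ) := rfl

omit [Fact ℓ.Prime] in
theorem incl_injective : Function.Injective (incl ℓ) := by
  intro x y h
  ext k
  have := congrArg (fun z => z.coeff k) h
  simpa [incl_coeff] using this

/-- The lift of a rational Laurent series with `ℓ`-integral coefficients. -/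
noncomputable def liftSeries (x : LaurentSeries ℚ)
    (hx : ∀ k, x.coeff k ∈ GaloisRep.ratLocalizedAt ℓ) :
    LaurentSeries ↥(GaloisRep.ratLocalizedAt ℓ) where
  coeff k := ⟨x.coeff k, hx k⟩
  isPWO_support' := by
    have : Function.support (fun k => (⟨x.coeff k, hx k⟩ : ↥(GaloisRep.ratLocalizedAt ℓ)))
        = x.support := by
      ext k
      simp [Subtype.ext_iff]
    rw [this]
    exact x.isPWO_support

omit [Fact ℓ.Prime] in
theorem incl_liftSeries (x : LaurentSeries ℚ)
    (hx : ∀ k, x.coeff k ∈ GaloisRep.ratLocalizedAt ℓ) : incl ℓ (liftSeries ℓ x hx) = x := by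
  ext k
  rfl

omit [Fact ℓ.Prime] in
/-- The coefficientwise reduction map `B ⊗ K → K((q))` attached to a ring homomorphism
`ι : B → ℚ((q))` with `ℓ`-integral values. -/
theorem exists_expansion_hom (K : Type) [Field K]
    [Algebra ↥(GaloisRep.ratLocalizedAt ℓ) K]
    (B : Type) [CommRing B] [Algebra ↥(GaloisRep.ratLocalizedAt ℓ) B]
    (ι : B →+* LaurentSeries ℚ)
    (hι : ∀ r : ↥(GaloisRep.ratLocalizedAt ℓ),
      ι (algebraMap ↥(GaloisRep.ratLocalizedAt ℓ) B r) = HahnSeries.C (r : ℚ))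
    (hint : ∀ (b : B) (k : ℤ), (ι b).coeff k ∈ GaloisRep.ratLocalizedAt ℓ) :
    ∃ Θ : B ⊗[↥(GaloisRep.ratLocalizedAt ℓ)] K →+* LaurentSeries K,
      ∀ (b : B) (x : K) (k : ℤ), (Θ (b ⊗ₜ x)).coeff k =
        algebraMap ↥(GaloisRep.ratLocalizedAt ℓ) K ⟨(ι b).coeff k, hint b k⟩ * x := by
  classical
  let ιR : B →+* LaurentSeries ↥(GaloisRep.ratLocalizedAt ℓ) :=
    { toFun := fun b => liftSeries ℓ (ι b) (hint b)
      map_one' := incl_injective ℓ (by rw [incl_liftSeries, map_one, map_one])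
      map_mul' := fun a b => incl_injective ℓ (by
        rw [incl_liftSeries, map_mul, map_mul, incl_liftSeries, incl_liftSeries])
      map_zero' := incl_injective ℓ (by rw [incl_liftSeries, map_zero, map_zero])
      map_add' := fun a b => incl_injective ℓ (by
        rw [incl_liftSeries, map_add, map_add, incl_liftSeries, incl_liftSeries]) }
  have hιR_coeff : ∀ b k, (ιR b).coeff k = ⟨(ι b).coeff k, hint b k⟩ := fun b k => rfl
  let φ : ↥(GaloisRep.ratLocalizedAt ℓ) →+* K := algebraMap ↥(GaloisRep.ratLocalizedAt ℓ) K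
  let redK : B →+* LaurentSeries K := (coeffMap φ).comp ιR
  have hredK_coeff : ∀ b k, (redK b).coeff k = φ ((ιR b).coeff k) := fun b k => rfl
  have hredK_alg : ∀ r : ↥(GaloisRep.ratLocalizedAt ℓ),
      redK (algebraMap ↥(GaloisRep.ratLocalizedAt ℓ) B r) = HahnSeries.C (φ r) := by
    intro r
    ext k
    rw [hredK_coeff]
    have h1 : (ιR (algebraMap ↥(GaloisRep.ratLocalizedAt ℓ) B r)).coeff k
        = (HahnSeries.C r : LaurentSeries ↥(GaloisRep.ratLocalizedAt ℓ)).coeff k := by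
      apply Subtype.ext
      rw [hιR_coeff]
      show (ι (algebraMap ↥(GaloisRep.ratLocalizedAt ℓ) B r)).coeff k = _
      rw [hι]
      by_cases hk : k = 0
      · subst hk
        rw [show (HahnSeries.C (r : ℚ) : LaurentSeries ℚ).coeff 0 = (r : ℚ) from
          HahnSeries.coeff_single_same 0 _,
          show (HahnSeries.C r : LaurentSeries ↥(GaloisRep.ratLocalizedAt ℓ)).coeff 0 = r from
          HahnSeries.coeff_single_same 0 _]
      · rw [show (HahnSeries.C (r : ℚ) : LaurentSeries ℚ).coeff k = 0 from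
          HahnSeries.coeff_single_of_ne hk,
          show (HahnSeries.C r : LaurentSeries ↥(GaloisRep.ratLocalizedAt ℓ)).coeff k = 0 from
          HahnSeries.coeff_single_of_ne hk]
        rfl
    rw [h1]
    by_cases hk : k = 0
    · subst hk
      rw [show (HahnSeries.C r : LaurentSeries ↥(GaloisRep.ratLocalizedAt ℓ)).coeff 0 = r from
          HahnSeries.coeff_single_same 0 _,
        show (HahnSeries.C (φ r) : LaurentSeries K).coeff 0 = φ r from
          HahnSeries.coeff_single_same 0 _]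
    · rw [show (HahnSeries.C r : LaurentSeries ↥(GaloisRep.ratLocalizedAt ℓ)).coeff k = 0 from
          HahnSeries.coeff_single_of_ne hk,
        show (HahnSeries.C (φ r) : LaurentSeries K).coeff k = 0 from
          HahnSeries.coeff_single_of_ne hk, map_zero]
  have halg : ∀ r : ↥(GaloisRep.ratLocalizedAt ℓ),
      algebraMap ↥(GaloisRep.ratLocalizedAt ℓ) (LaurentSeries K) r = HahnSeries.C (φ r) := by
    intro r
    rw [HahnSeries.algebraMap_apply', PowerSeries.algebraMap_apply, HahnSeries.ofPowerSeries_C]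
  let fA : B →ₐ[↥(GaloisRep.ratLocalizedAt ℓ)] LaurentSeries K :=
    { redK with commutes' := fun r => (hredK_alg r).trans (halg r).symm }
  let gA : K →ₐ[↥(GaloisRep.ratLocalizedAt ℓ)] LaurentSeries K :=
    { (HahnSeries.C : K →+* LaurentSeries K) with commutes' := fun r => (halg r).symm }
  refine ⟨(Algebra.TensorProduct.productMap fA gA).toRingHom, fun b x k => ?_⟩
  have h1 : (Algebra.TensorProduct.productMap fA gA).toRingHom (b ⊗ₜ x)
      = redK b * HahnSeries.C x := Algebra.TensorProduct.productMap_apply_tmul _ _ _ _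
  rw [h1, ← hιR_coeff, ← hredK_coeff]
  exact HahnSeries.coeff_mul_single_zero (x := redK b) (r := x) (a := k)

/-- **Abstract form of package M6.** Let `B` be a `ℤ_(ℓ)`-algebra with a ring homomorphism `ι`
to rational Laurent series whose values have `ℓ`-integral coefficients, and assume the
`q`-expansion principle: an element all of whose coefficients are divisible by `ℓ` is divisible
by `ℓ` in `B`. Then `B ⊗ K` is a domain for every field `K` of characteristic `ℓ`. -/
theorem isDomain_tensor_of_qep_abstract (K : Type) [Field K] [CharP K ℓ]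
    [Algebra ↥(GaloisRep.ratLocalizedAt ℓ) K]
    (B : Type) [CommRing B] [Algebra ↥(GaloisRep.ratLocalizedAt ℓ) B]
    (ι : B →+* LaurentSeries ℚ)
    (hι : ∀ r : ↥(GaloisRep.ratLocalizedAt ℓ),
      ι (algebraMap ↥(GaloisRep.ratLocalizedAt ℓ) B r) = HahnSeries.C (r : ℚ))
    (hint : ∀ (b : B) (k : ℤ), (ι b).coeff k ∈ GaloisRep.ratLocalizedAt ℓ)
    (hqep : ∀ b : B, (∀ k : ℤ, ∃ c ∈ GaloisRep.ratLocalizedAt ℓ, (ι b).coeff k = (ℓ : ℚ) * c) →
      ∃ b' : B, b = algebraMap ↥(GaloisRep.ratLocalizedAt ℓ) B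
        (ℓ : ↥(GaloisRep.ratLocalizedAt ℓ)) * b') :
    IsDomain (B ⊗[↥(GaloisRep.ratLocalizedAt ℓ)] K) := by
  classical
  obtain ⟨Θ, hΘ⟩ := exists_expansion_hom ℓ K B ι hι hint
  let φ : ↥(GaloisRep.ratLocalizedAt ℓ) →+* K := algebraMap ↥(GaloisRep.ratLocalizedAt ℓ) K
  -- a basis of `K` over the prime field
  let algZ : Algebra (ZMod ℓ) K := ZMod.algebra K ℓ
  let e := Module.Basis.ofVectorSpace (ZMod ℓ) K
  have hsmul : ∀ (z : ZMod ℓ) (x : K),
      z • x = ((z.val : ℕ) : ↥(GaloisRep.ratLocalizedAt ℓ)) • x := by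
    intro z x
    rw [Algebra.smul_def, Algebra.smul_def, map_natCast]
    congr 1
    show ZMod.castHom (dvd_refl ℓ) K z = _
    rw [ZMod.castHom_apply, ZMod.natCast_val]
  -- the comparison map from finitely supported families
  let G : (Module.Basis.ofVectorSpaceIndex (ZMod ℓ) K →₀ B) →ₗ[↥(GaloisRep.ratLocalizedAt ℓ)]
      B ⊗[↥(GaloisRep.ratLocalizedAt ℓ)] K :=
    Finsupp.lsum ↥(GaloisRep.ratLocalizedAt ℓ)
      (fun j => (TensorProduct.mk ↥(GaloisRep.ratLocalizedAt ℓ) B K).flip (e j))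
  have hG : ∀ f, G f = f.sum (fun j b => b ⊗ₜ[↥(GaloisRep.ratLocalizedAt ℓ)] e j) := fun f => by
    simp only [G, Finsupp.lsum_apply]
    rfl
  have hGsurj : Function.Surjective G := by
    intro t
    induction t using TensorProduct.induction_on with
    | zero => exact ⟨0, map_zero _⟩
    | add x y hx hy =>
      obtain ⟨fx, rfl⟩ := hx
      obtain ⟨fy, rfl⟩ := hy
      exact ⟨fx + fy, map_add _ _ _⟩
    | tmul b x =>
      have hx : x ∈ Submodule.span (ZMod ℓ) (Set.range e) := by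
        rw [e.span_eq]; exact Submodule.mem_top
      induction hx using Submodule.span_induction with
      | mem y hy =>
        obtain ⟨j, rfl⟩ := hy
        refine ⟨Finsupp.single j b, ?_⟩
        rw [hG, Finsupp.sum_single_index]
        exact TensorProduct.zero_tmul _ _
      | zero => exact ⟨0, by rw [map_zero, TensorProduct.tmul_zero]⟩
      | add y z _ _ hy hz =>
        obtain ⟨fy, hfy⟩ := hy
        obtain ⟨fz, hfz⟩ := hz
        exact ⟨fy + fz, by rw [map_add, hfy, hfz, TensorProduct.tmul_add]⟩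
      | smul z y _ hy =>
        obtain ⟨fy, hfy⟩ := hy
        refine ⟨((z.val : ℕ) : ↥(GaloisRep.ratLocalizedAt ℓ)) • fy, ?_⟩
        rw [map_smul, hfy, hsmul, TensorProduct.tmul_smul]
  have hΘinj : Function.Injective Θ := by
    rw [injective_iff_map_eq_zero]
    intro t ht
    obtain ⟨f, rfl⟩ := hGsurj t
    have hcoef : ∀ k : ℤ,
        ∑ j ∈ f.support, φ ⟨(ι (f j)).coeff k, hint (f j) k⟩ * e j = 0 := by
      intro k
      have h0 := congrArg (fun x => x.coeff k) ht
      rw [hG, Finsupp.sum, map_sum] at h0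
      simp only [HahnSeries.coeff_sum, HahnSeries.coeff_zero] at h0
      rw [← h0]
      exact Finset.sum_congr rfl (fun j _ => (hΘ _ _ _).symm)
    have hdiv : ∀ j ∈ f.support, ∀ k : ℤ,
        ∃ c ∈ GaloisRep.ratLocalizedAt ℓ, (ι (f j)).coeff k = (ℓ : ℚ) * c := by
      intro j hj k
      choose z hz1 hz2 using fun i =>
        exists_residue ℓ K φ ⟨(ι (f i)).coeff k, hint (f i) k⟩
      have hlin : ∑ i ∈ f.support, z i • e i = 0 := by
        rw [← hcoef k]
        refine Finset.sum_congr rfl (fun i _ => ?_)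
        rw [hz1 i, Algebra.smul_def]
        rfl
      have hzj := linearIndependent_iff'.mp e.linearIndependent f.support z hlin j hj
      obtain ⟨c', hc'⟩ := hz2 j hzj
      refine ⟨c', c'.2, ?_⟩
      have := congrArg (Subtype.val) hc'
      simpa using this
    rw [hG, Finsupp.sum]
    refine Finset.sum_eq_zero (fun j hj => ?_)
    obtain ⟨b', hb'⟩ := hqep (f j) (hdiv j hj)
    have hzero : (ℓ : ↥(GaloisRep.ratLocalizedAt ℓ)) • e j = 0 := by
      rw [Algebra.smul_def, map_natCast, CharP.cast_eq_zero, zero_mul]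
    rw [hb', ← Algebra.smul_def, TensorProduct.smul_tmul, hzero, TensorProduct.tmul_zero]
  exact Function.Injective.isDomain Θ hΘinj

omit [Fact ℓ.Prime] in
/-- Without the `q`-expansion principle one still gets that `B ⊗ K` is nontrivial. -/
theorem nontrivial_tensor_abstract (K : Type) [Field K]
    [Algebra ↥(GaloisRep.ratLocalizedAt ℓ) K]
    (B : Type) [CommRing B] [Algebra ↥(GaloisRep.ratLocalizedAt ℓ) B]
    (ι : B →+* LaurentSeries ℚ)
    (hι : ∀ r : ↥(GaloisRep.ratLocalizedAt ℓ),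
      ι (algebraMap ↥(GaloisRep.ratLocalizedAt ℓ) B r) = HahnSeries.C (r : ℚ))
    (hint : ∀ (b : B) (k : ℤ), (ι b).coeff k ∈ GaloisRep.ratLocalizedAt ℓ) :
    Nontrivial (B ⊗[↥(GaloisRep.ratLocalizedAt ℓ)] K) := by
  obtain ⟨Θ, -⟩ := exists_expansion_hom ℓ K B ι hι hint
  exact Θ.domain_nontrivial

end Abstract

section Charts

open ModularCurve.IgusaScheme

variable (N : ℕ) [NeZero N] (ℓ : ℕ) [Fact ℓ.Prime]

/-- The `q`-expansion map of a chart algebra. -/
noncomputable def chartExp (S : Set ↥(modularFunctionFieldFull N)) :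
    ↥(chartAlg N ℓ S) →+* LaurentSeries ℚ :=
  ((modularFunctionFieldFull N).toSubfield.subtype).comp (chartAlg N ℓ S).toSubring.subtype

omit [NeZero N] [Fact ℓ.Prime] in
theorem chartExp_apply (S : Set ↥(modularFunctionFieldFull N)) (x : ↥(chartAlg N ℓ S)) :
    chartExp N ℓ S x = ((x : ↥(modularFunctionFieldFull N)) : LaurentSeries ℚ) := rfl

omit [NeZero N] [Fact ℓ.Prime] in
theorem chartExp_algebraMap (S : Set ↥(modularFunctionFieldFull N))
    (r : ↥(GaloisRep.ratLocalizedAt ℓ)) :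
    chartExp N ℓ S (algebraMap ↥(GaloisRep.ratLocalizedAt ℓ) ↥(chartAlg N ℓ S) r)
      = HahnSeries.C (r : ℚ) := by
  rw [chartExp_apply]
  show ((algebraMap ℚ ↥(modularFunctionFieldFull N) (r : ℚ) : ↥(modularFunctionFieldFull N)) :
    LaurentSeries ℚ) = _
  have h1 : ((algebraMap ℚ ↥(modularFunctionFieldFull N) (r : ℚ) :
      ↥(modularFunctionFieldFull N)) : LaurentSeries ℚ)
      = algebraMap ℚ (LaurentSeries ℚ) (r : ℚ) := by
    first
      | rfl
      | exact IntermediateField.coe_algebraMap_apply _ _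
      | simp
  rw [h1, algebraMap_laurentSeries_eq_single]
  rfl

omit [NeZero N] in
/-- **Package M6 (independent backup).** If the elements of a chart algebra have
`ℓ`-integral `q`-expansions and the `q`-expansion principle holds for it, then its base change
to any field of characteristic `ℓ` is a domain. -/
theorem isDomain_tensor_chartAlg (K : Type) [Field K] [CharP K ℓ]
    [Algebra ↥(GaloisRep.ratLocalizedAt ℓ) K] (S : Set ↥(modularFunctionFieldFull N))
    (hint : ∀ x : ↥(modularFunctionFieldFull N), x ∈ chartAlg N ℓ S → ∀ k : ℤ,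
      (x : LaurentSeries ℚ).coeff k ∈ GaloisRep.ratLocalizedAt ℓ)
    (hqep : ∀ x : ↥(modularFunctionFieldFull N), x ∈ chartAlg N ℓ S →
      (∀ k : ℤ, ∃ c ∈ GaloisRep.ratLocalizedAt ℓ, (x : LaurentSeries ℚ).coeff k = (ℓ : ℚ) * c) →
      ∃ y : ↥(modularFunctionFieldFull N), y ∈ chartAlg N ℓ S ∧
        x = (ℓ : ↥(modularFunctionFieldFull N)) * y) :
    IsDomain (↥(chartAlg N ℓ S) ⊗[↥(GaloisRep.ratLocalizedAt ℓ)] K) := by
  refine isDomain_tensor_of_qep_abstract ℓ K ↥(chartAlg N ℓ S) (chartExp N ℓ S)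
    (chartExp_algebraMap N ℓ S) (fun b k => hint b.1 b.2 k) (fun b hb => ?_)
  obtain ⟨y, hy, hxy⟩ := hqep b.1 b.2 hb
  refine ⟨⟨y, hy⟩, Subtype.ext ?_⟩
  rw [map_natCast, Subalgebra.coe_mul]
  exact hxy

omit [NeZero N] [Fact ℓ.Prime] in
/-- The base change of a chart algebra with `ℓ`-integral `q`-expansions is nontrivial. -/
theorem nontrivial_tensor_chartAlg (K : Type) [Field K]
    [Algebra ↥(GaloisRep.ratLocalizedAt ℓ) K] (S : Set ↥(modularFunctionFieldFull N))
    (hint : ∀ x : ↥(modularFunctionFieldFull N), x ∈ chartAlg N ℓ S → ∀ k : ℤ,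
      (x : LaurentSeries ℚ).coeff k ∈ GaloisRep.ratLocalizedAt ℓ) :
    Nontrivial (↥(chartAlg N ℓ S) ⊗[↥(GaloisRep.ratLocalizedAt ℓ)] K) :=
  nontrivial_tensor_abstract ℓ K ↥(chartAlg N ℓ S) (chartExp N ℓ S)
    (chartExp_algebraMap N ℓ S) (fun b k => hint b.1 b.2 k)

/-- **Packages M6 + M7 combined.** The fibre of the Igusa scheme over a field `K` of
characteristic `ℓ` is integral as soon as the three chart algebras have `ℓ`-integral
`q`-expansions and the `q`-expansion principle holds for the two charts `j` and `j⁻¹`. -/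
theorem isIntegral_pullback_of_qep (K : Type) [Field K] [CharP K ℓ]
    [Algebra ↥(GaloisRep.ratLocalizedAt ℓ) K]
    (hintFin : ∀ x : ↥(modularFunctionFieldFull N), x ∈ chartAlgFin N ℓ → ∀ k : ℤ,
      (x : LaurentSeries ℚ).coeff k ∈ GaloisRep.ratLocalizedAt ℓ)
    (hintInf : ∀ x : ↥(modularFunctionFieldFull N), x ∈ chartAlgInf N ℓ → ∀ k : ℤ,
      (x : LaurentSeries ℚ).coeff k ∈ GaloisRep.ratLocalizedAt ℓ)
    (hintMid : ∀ x : ↥(modularFunctionFieldFull N), x ∈ chartAlgMid N ℓ → ∀ k : ℤ,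
      (x : LaurentSeries ℚ).coeff k ∈ GaloisRep.ratLocalizedAt ℓ)
    (hqepFin : ∀ x : ↥(modularFunctionFieldFull N), x ∈ chartAlgFin N ℓ →
      (∀ k : ℤ, ∃ c ∈ GaloisRep.ratLocalizedAt ℓ, (x : LaurentSeries ℚ).coeff k = (ℓ : ℚ) * c) →
      ∃ y : ↥(modularFunctionFieldFull N), y ∈ chartAlgFin N ℓ ∧
        x = (ℓ : ↥(modularFunctionFieldFull N)) * y)
    (hqepInf : ∀ x : ↥(modularFunctionFieldFull N), x ∈ chartAlgInf N ℓ →
      (∀ k : ℤ, ∃ c ∈ GaloisRep.ratLocalizedAt ℓ, (x : LaurentSeries ℚ).coeff k = (ℓ : ℚ) * c) →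
      ∃ y : ↥(modularFunctionFieldFull N), y ∈ chartAlgInf N ℓ ∧
        x = (ℓ : ↥(modularFunctionFieldFull N)) * y) :
    AlgebraicGeometry.IsIntegral
      (CategoryTheory.Limits.pullback (igusaTo N ℓ)
        (AlgebraicGeometry.Spec.map
          (CommRingCat.ofHom (algebraMap ↥(GaloisRep.ratLocalizedAt ℓ) K)))) :=
  isIntegral_pullback_of_charts N ℓ K
    (isDomain_tensor_chartAlg N ℓ K _ hintFin hqepFin)
    (isDomain_tensor_chartAlg N ℓ K _ hintInf hqepInf)
    (nontrivial_tensor_chartAlg N ℓ K _ hintMid)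

end Charts

end Fermat.Agent.S28.H87
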